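import Mathlib
import Fermat.Prelude.Def_FLTPrelim_FreyPackage
import Fermat.Agent.S05.Arith

set_option autoImplicit false

/-!
# P-S13 WP-L2: arithmetic of the Frey curve at the prime `2`

`E : y² + x y = x³ + a₂ x² + a₄ x` with `a₂ = (b^p - 1 - a^p)/4 ∈ ℤ` and
`a₄ = -a^p b^p / 16 = 2^(p e - 4) · c`, `c` odd, `e = v₂(b) ≥ 1`.  For a valuation subring `A` of a
field `K ⊇ ℚ` lying over `2` this gives `v(a₄) = v(2)^m` with `m = p e - 4 > 0` prime to `p`.
Also: valuations of rational numbers are integral powers of `v(2)`, and a rational number in `A`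
is congruent to `0` or `1` modulo the maximal ideal.
-/

namespace Fermat.Agent.S13

open Fermat.Agent.S05

/-! ### Integers -/

section Int

variable (P : FreyPackage)

theorem two_dvd_b : (2 : ℤ) ∣ P.b := (ZMod.intCast_zmod_eq_zero_iff_dvd P.b 2).1 P.hb2

theorem not_two_dvd_a : ¬ (2 : ℤ) ∣ P.a := by
  intro h
  have h1 : (2 : ℤ) ∣ gcd P.a P.b := dvd_gcd h (two_dvd_b P)
  rw [P.hgcdab] at h1
  have : (2 : ℤ) ≤ 1 := Int.le_of_dvd one_pos h1
  omega

theorem four_dvd_frey_a₂_num : (4 : ℤ) ∣ P.b ^ P.p - 1 - P.a ^ P.p := by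
  have hp := P.hp5
  obtain ⟨k, hk⟩ := P.hp_odd
  have hb : (4 : ℤ) ∣ P.b ^ P.p := by
    obtain ⟨b', hb'⟩ := two_dvd_b P
    have : P.b ^ P.p = 4 * (2 ^ (P.p - 2) * b' ^ P.p) := by
      rw [hb', mul_pow]
      have : (2 : ℤ) ^ P.p = 4 * 2 ^ (P.p - 2) := by
        rw [show (4 : ℤ) = 2 ^ 2 by norm_num, ← pow_add]
        congr 1
        omega
      rw [this]
      ring
    exact Dvd.intro _ this.symm
  have ha : (4 : ℤ) ∣ 1 + P.a ^ P.p := by
    have h0 : ((1 + P.a ^ P.p : ℤ) : ZMod 4) = 0 := by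
      push_cast
      rw [P.ha4, hk, pow_succ, pow_mul]
      have h9 : ((3 : ZMod 4)) ^ 2 = 1 := by decide
      rw [h9, one_pow]
      decide
    have := (ZMod.intCast_zmod_eq_zero_iff_dvd (1 + P.a ^ P.p) 4).mp h0
    exact_mod_cast this
  have : P.b ^ P.p - 1 - P.a ^ P.p = P.b ^ P.p - (1 + P.a ^ P.p) := by ring
  rw [this]
  exact dvd_sub hb ha

/-- `b = 2^e b'` with `e ≥ 1` and `b'` odd. -/
theorem exists_b_eq_two_pow_mul : ∃ (e : ℕ) (b' : ℤ), 1 ≤ e ∧ ¬ (2 : ℤ) ∣ b' ∧ P.b = 2 ^ e * b' := by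
  obtain ⟨k, m, hm, hkm⟩ := Nat.exists_eq_two_pow_mul_odd (Int.natAbs_ne_zero.mpr P.hb0)
  have hm' : ¬ (2 : ℤ) ∣ (m : ℤ) := by
    rw [← even_iff_two_dvd, Int.not_even_iff_odd]
    exact_mod_cast hm
  have hk1 : 1 ≤ k := by
    by_contra h
    have hk0 : k = 0 := by omega
    rw [hk0, pow_zero, one_mul] at hkm
    have h2 := two_dvd_b P
    rw [← Int.dvd_natAbs, hkm] at h2
    exact hm' h2
  rcases Int.natAbs_eq P.b with h | h
  · refine ⟨k, m, hk1, hm', ?_⟩
    rw [h, hkm]
    push_cast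
    ring
  · refine ⟨k, -m, hk1, by rwa [dvd_neg], ?_⟩
    rw [h, hkm]
    push_cast
    ring

end Int

/-! ### Valuations of rational numbers over `2` -/

section Val

variable {K : Type*} [Field K] {A : ValuationSubring K}

theorem valuation_two_lt_one (hA : (2 : K) ∈ A.nonunits) : A.valuation (2 : K) < 1 :=
  (ValuationSubring.mem_nonunits_iff A).mp hA

theorem valuation_odd_eq_one (hA : (2 : K) ∈ A.nonunits) {n : ℤ} (hn : ¬ (2 : ℤ) ∣ n) :
    A.valuation (n : K) = 1 :=
  valuation_intCast_eq_one (q := 2) Nat.prime_two (by exact_mod_cast hA) (by exact_mod_cast hn)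

theorem valuation_even_lt_one (hA : (2 : K) ∈ A.nonunits) {n : ℤ} (hn : (2 : ℤ) ∣ n) :
    A.valuation (n : K) < 1 :=
  valuation_intCast_lt_one (q := 2) (by exact_mod_cast hA) (by exact_mod_cast hn)

/-- The valuation of a nonzero integer is a power of `v(2)`. -/
theorem exists_valuation_intCast_eq (hA : (2 : K) ∈ A.nonunits) {n : ℤ} (hn : n ≠ 0) :
    ∃ i : ℕ, A.valuation (n : K) = A.valuation (2 : K) ^ i := by
  obtain ⟨k, m, hm, hkm⟩ := Nat.exists_eq_two_pow_mul_odd (Int.natAbs_ne_zero.mpr hn)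
  have hm' : ¬ (2 : ℤ) ∣ (m : ℤ) := by
    rw [← even_iff_two_dvd, Int.not_even_iff_odd]
    exact_mod_cast hm
  refine ⟨k, ?_⟩
  have hv : A.valuation (n : K) = A.valuation ((n.natAbs : ℤ) : K) := by
    rcases Int.natAbs_eq n with h | h
    · rw [← h]
    · conv_lhs => rw [h]
      rw [Int.cast_neg, Valuation.map_neg]
  rw [hv, hkm]
  push_cast
  rw [map_mul, map_pow]
  have := valuation_odd_eq_one hA hm'
  rw [Int.cast_natCast] at this
  rw [this, mul_one]

variable [Algebra ℚ K]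

/-- The valuation of a nonzero rational number is an integral power of `v(2)`. -/
theorem exists_valuation_rat_eq (hA : (2 : K) ∈ A.nonunits) {r : ℚ} (hr : r ≠ 0) :
    ∃ z : ℤ, A.valuation (algebraMap ℚ K r) = A.valuation (2 : K) ^ z := by
  obtain ⟨i, hi⟩ := exists_valuation_intCast_eq hA (Rat.num_ne_zero.mpr hr)
  obtain ⟨j, hj⟩ := exists_valuation_intCast_eq hA
    (n := (r.den : ℤ)) (by exact_mod_cast r.den_nz)
  refine ⟨(i : ℤ) - j, ?_⟩
  have h2 : A.valuation (2 : K) ≠ 0 := by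
    rw [Valuation.ne_zero_iff]
    have : CharZero K := algebraRat.charZero K
    exact two_ne_zero
  have hr' : algebraMap ℚ K r = (r.num : K) / ((r.den : ℤ) : K) := by
    conv_lhs => rw [← Rat.num_div_den r]
    rw [map_div₀, map_intCast, map_natCast, Int.cast_natCast]
  rw [hr', map_div₀, hi, hj, zpow_sub₀ h2, zpow_natCast, zpow_natCast]

/-- A rational number lying in a valuation subring over `2` is congruent to `0` or to `1`. -/
theorem rat_lt_one_or_sub_one_lt_one (hA : (2 : K) ∈ A.nonunits) {r : ℚ}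
    (hr : algebraMap ℚ K r ∈ A) :
    A.valuation (algebraMap ℚ K r) < 1 ∨ A.valuation (algebraMap ℚ K r - 1) < 1 := by
  have hchar : CharZero K := algebraRat.charZero K
  have hr' : algebraMap ℚ K r = (r.num : K) / ((r.den : ℤ) : K) := by
    conv_lhs => rw [← Rat.num_div_den r]
    rw [map_div₀, map_intCast, map_natCast, Int.cast_natCast]
  have hden0 : ((r.den : ℤ) : K) ≠ 0 := by
    have := r.den_nz
    exact_mod_cast this
  -- the denominator is odd
  have hdodd : ¬ (2 : ℤ) ∣ (r.den : ℤ) := by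
    intro hd
    have hnum : ¬ (2 : ℤ) ∣ r.num := by
      intro hn
      have hcop := r.reduced
      have h2 : (2 : ℕ) ∣ r.num.natAbs := by
        have := Int.natAbs_dvd_natAbs.mpr hn
        simpa using this
      have h3 : (2 : ℕ) ∣ r.den := by exact_mod_cast hd
      have := Nat.dvd_gcd h2 h3
      rw [Nat.Coprime] at hcop
      rw [hcop] at this
      omega
    have h1 := valuation_odd_eq_one hA hnum
    have h2 := valuation_even_lt_one hA hd
    rw [← A.valuation_le_one_iff, hr', map_div₀, h1] at hr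
    have hpos : 0 < A.valuation ((r.den : ℤ) : K) := (Valuation.pos_iff _).mpr hden0
    rw [div_le_iff₀ hpos, one_mul] at hr
    exact absurd (lt_of_le_of_lt hr h2) (lt_irrefl _)
  have hvden := valuation_odd_eq_one hA hdodd
  by_cases hn : (2 : ℤ) ∣ r.num
  · left
    rw [hr', map_div₀, hvden, div_one]
    exact valuation_even_lt_one hA hn
  · right
    have hsub : (2 : ℤ) ∣ r.num - (r.den : ℤ) := by
      have h1 : r.num % 2 = 1 := by omega
      have h2 : (r.den : ℤ) % 2 = 1 := by omega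
      omega
    have : (r.num : K) / ((r.den : ℤ) : K) - 1 = ((r.num - (r.den : ℤ) : ℤ) : K) / ((r.den : ℤ) : K) := by
      rw [Int.cast_sub, sub_div, div_self hden0]
    rw [hr', this, map_div₀, hvden, div_one]
    exact valuation_even_lt_one hA hsub

end Val

end Fermat.Agent.S13
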