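import Fermat.Agent.S13.LocalTwo.Arith
import Fermat.Prelude.Def_FLTPrelim_GaloisRep

set_option autoImplicit false

/-!
# P-S13 WP-L2: the coefficients of the Frey curve over a field `K ⊇ ℚ`, at a place over `2`
-/

namespace Fermat.Agent.S13

open WeierstrassCurve

variable (P : FreyPackage) {K : Type*} [Field K] [Algebra ℚ K]

@[simp] theorem frey_a₁ : (P.freyCurve⁄K).a₁ = 1 := by
  show algebraMap ℚ K (1 : ℚ) = 1
  exact map_one _

@[simp] theorem frey_a₃ : (P.freyCurve⁄K).a₃ = 0 := by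
  show algebraMap ℚ K (0 : ℚ) = 0
  exact map_zero _

@[simp] theorem frey_a₆ : (P.freyCurve⁄K).a₆ = 0 := by
  show algebraMap ℚ K (0 : ℚ) = 0
  exact map_zero _

/-- `a₂` of the Frey curve is an integer. -/
theorem exists_frey_a₂_eq : ∃ n : ℤ, (P.freyCurve⁄K).a₂ = (n : K) := by
  obtain ⟨n, hn⟩ := four_dvd_frey_a₂_num P
  refine ⟨n, ?_⟩
  show algebraMap ℚ K (((P.b : ℚ) ^ P.p - 1 - (P.a : ℚ) ^ P.p) / 4) = _
  have : ((P.b : ℚ) ^ P.p - 1 - (P.a : ℚ) ^ P.p) / 4 = (n : ℚ) := by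
    have h := congrArg (fun z : ℤ => (z : ℚ)) hn
    push_cast at h
    rw [h]
    field_simp
  rw [this, map_intCast]

/-- `a₄ = 2^(p e - 4) c` with `c` odd, `e ≥ 1`. -/
theorem exists_frey_a₄_eq : ∃ (e : ℕ) (c : ℤ), 1 ≤ e ∧ ¬ (2 : ℤ) ∣ c ∧
    (P.freyCurve⁄K).a₄ = (2 : K) ^ (P.p * e - 4) * (c : K) := by
  obtain ⟨e, b', he, hb', hb⟩ := exists_b_eq_two_pow_mul P
  have hp := P.hp5
  have hpe : 4 ≤ P.p * e := by nlinarith
  refine ⟨e, -(P.a ^ P.p * b' ^ P.p), he, ?_, ?_⟩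
  · rw [dvd_neg]
    intro h
    rcases Int.prime_two.dvd_or_dvd h with h | h
    · exact not_two_dvd_a P (Int.prime_two.dvd_of_dvd_pow h)
    · exact hb' (Int.prime_two.dvd_of_dvd_pow h)
  · show algebraMap ℚ K (-((P.a : ℚ) ^ P.p) * (P.b : ℚ) ^ P.p / 16) = _
    have : -((P.a : ℚ) ^ P.p) * (P.b : ℚ) ^ P.p / 16 =
        (2 : ℚ) ^ (P.p * e - 4) * ((-(P.a ^ P.p * b' ^ P.p) : ℤ) : ℚ) := by
      have h2 : (2 : ℚ) ^ (P.p * e) = 2 ^ (P.p * e - 4) * 16 := by
        rw [show (16 : ℚ) = 2 ^ 4 by norm_num, ← pow_add]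
        congr 1
        omega
      rw [hb]
      push_cast
      rw [mul_pow, ← pow_mul, mul_comm e P.p, h2]
      ring
    rw [this, map_mul, map_pow, map_ofNat, map_intCast]

section Val

variable {A : ValuationSubring K} (hA : (2 : K) ∈ A.nonunits)

include hA

omit hA in
theorem frey_a₂_mem (A : ValuationSubring K) : (P.freyCurve⁄K).a₂ ∈ A := by
  obtain ⟨n, hn⟩ := exists_frey_a₂_eq (K := K) P
  rw [hn]
  exact Fermat.Agent.S05.intCast_mem A n

/-- `v(a₄) = v(2)^m` with `m > 0` prime to `p`. -/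
theorem exists_valuation_frey_a₄ : ∃ m : ℕ, 0 < m ∧ ¬ P.p ∣ m ∧
    A.valuation (P.freyCurve⁄K).a₄ = A.valuation (2 : K) ^ m := by
  obtain ⟨e, c, he, hc, h⟩ := exists_frey_a₄_eq (K := K) P
  have hp := P.hp5
  have hpe : 5 ≤ P.p * e := by nlinarith
  refine ⟨P.p * e - 4, by omega, ?_, ?_⟩
  · intro hd
    have h4 : P.p ∣ 4 := by
      have h1 : P.p ∣ P.p * e := dvd_mul_right _ _
      have h2 : P.p * e = (P.p * e - 4) + 4 := by omega
      rw [h2] at h1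
      exact (Nat.dvd_add_right hd).mp h1
    have := Nat.le_of_dvd (by norm_num) h4
    omega
  · rw [h, map_mul, map_pow, valuation_odd_eq_one hA hc, mul_one]

theorem valuation_frey_a₄_lt_one : A.valuation (P.freyCurve⁄K).a₄ < 1 := by
  obtain ⟨m, hm, -, h⟩ := exists_valuation_frey_a₄ P hA
  rw [h]
  exact pow_lt_one₀ zero_le (valuation_two_lt_one hA) hm.ne'

theorem frey_a₄_mem : (P.freyCurve⁄K).a₄ ∈ A := by
  rw [← A.valuation_le_one_iff]
  exact (valuation_frey_a₄_lt_one P hA).le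

omit hA in
theorem frey_a₄_ne_zero : (P.freyCurve⁄K).a₄ ≠ 0 := by
  obtain ⟨e, c, he, hc, h⟩ := exists_frey_a₄_eq (K := K) P
  have hchar : CharZero K := algebraRat.charZero K
  rw [h]
  refine mul_ne_zero (pow_ne_zero _ two_ne_zero) ?_
  have : c ≠ 0 := by
    rintro rfl
    exact hc (dvd_zero _)
  exact_mod_cast this

end Val

end Fermat.Agent.S13
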