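import Fermat.Agent.S13.LocalTwo.Transfer

set_option autoImplicit false

/-!
# P-S13 WP-L2: (LM1) and (LM4) transported to the Frey curve at `2`
-/

namespace Fermat.Agent.S13

open WeierstrassCurve WeierstrassCurve.Affine
open Fermat.Agent.Lib.EC.LocalOrder (xCoord)

variable {K : Type*} [Field K] [DecidableEq K] [Algebra ℚ K] (P : FreyPackage)

omit [DecidableEq K] in
theorem exists_alpha [IsAlgClosed K] : ∃ α : K, α ^ 2 + α = (P.freyCurve⁄K).a₂ := by
  have hchar : CharZero K := algebraRat.charZero K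
  obtain ⟨u, hu⟩ := IsAlgClosed.exists_pow_nat_eq (1 + 4 * (P.freyCurve⁄K).a₂) (n := 2)
    (by norm_num)
  refine ⟨(u - 1) / 2, ?_⟩
  field_simp
  linear_combination hu

variable {A : ValuationSubring K} (hA : (2 : K) ∈ A.nonunits)
  (H : ∀ W : Affine K, Nodal.NodalData A W → LMInput P.p A W)

include hA H

/-- (LM1) on the Frey curve: an element of the inertia group at `2` moves every point by a point
of `E₀`. -/
theorem isIdent_map_sub [IsAlgClosed K] [Algebra.IsAlgebraic ℚ K] {σ : K ≃ₐ[ℚ] K}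
    (hσ : σ ∈ A.inertiaSubgroupIn ℚ) (R : (P.freyCurve⁄K).Point) :
    Nodal.IsIdent A (Point.map (W' := P.freyCurve) σ.toAlgHom R - R) := by
  obtain ⟨α, hα⟩ := exists_alpha (K := K) P
  have hu := u_ne_zero P hα hA
  obtain ⟨Q, rfl⟩ := psi_surjective P hα hu R
  rcases Q with _ | ⟨X, Y, h⟩
  · change Nodal.IsIdent A (Point.map (W' := P.freyCurve) σ.toAlgHom (psi P hα hu 0) -
      psi P hα hu 0)
    rw [map_zero, map_zero, sub_zero]
    exact Nodal.isIdent_zero A
  · obtain ⟨h', e⟩ := map_psi_some P hα hu σ (inertia_fixes_alpha P hα hA hσ) h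
    rw [e, ← map_sub, isIdent_psi_iff P hα hA]
    have hσA := Fermat.Agent.S05.inertia_smul_eq hσ
    refine (H _ (nodalData P hα hA)).lm1 h h' (valuation_map_eq_of_smul_eq hσA X)
      (valuation_map_eq_of_smul_eq hσA Y) ?_
    rw [← map_add]
    exact valuation_map_eq_of_smul_eq hσA (Y + X)

/-- (LM4) on the Frey curve. -/
theorem prod_valuation_xCoord_frey [IsAlgClosed K] (R : (P.freyCurve⁄K).Point)
    (hR : ¬ Nodal.IsIdent A R) (hpR : P.p • R = 0) :
    ∏ j ∈ Finset.Ico 1 (P.p / 2 + 1), A.valuation (xCoord _ (j • R)) ^ P.p =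
      A.valuation (P.freyCurve⁄K).a₄ ^ ((P.p ^ 2 - 1) / 4) := by
  obtain ⟨α, hα⟩ := exists_alpha (K := K) P
  have hu := u_ne_zero P hα hA
  obtain ⟨Q, rfl⟩ := psi_surjective P hα hu R
  rw [isIdent_psi_iff P hα hA] at hR
  have hpQ : P.p • Q = 0 := by
    apply psi_injective P hα hu
    rw [map_nsmul, hpR, map_zero]
  have h4 := (H _ (nodalData P hα hA)).lm4 Q hR hpQ
  have hb : A.valuation (nodalCurve (nodalB P α)).toAffine.a₄ =
      A.valuation (P.freyCurve⁄K).a₄ := valuation_nodalB P hα hA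
  rw [hb] at h4
  rw [← h4]
  refine Finset.prod_congr rfl fun j _ => ?_
  rw [← map_nsmul, xCoord_psi, map_mul, map_pow, valuation_u_eq_one P hα hA, one_pow, one_mul]

end Fermat.Agent.S13
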