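import Fermat.Agent.S13.Nodal.Defs
import Fermat.Agent.Lib.EC.FunctionField.LocalOrder

set_option autoImplicit false

/-!
# P-S13 WP-L2: the input from WP-LM (component theory of the nodal normal form)

Hypothesis-style interface: the two facts (LM1), (LM4) of the blueprint (note 786) about a nodal
model `W : y² + x y = x³ + b x`, in coordinate form.
-/

namespace Fermat.Agent.S13

open WeierstrassCurve WeierstrassCurve.Affine
open Fermat.Agent.Lib.EC.LocalOrder (xCoord)

variable {K : Type*} [Field K] [DecidableEq K]

/-- The input from WP-LM (`S13/LocalMult.lean`) on a nodal model `W`, in coordinate form. -/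
structure LMInput (p : ℕ) (A : ValuationSubring K) (W : Affine K) : Prop where
  /-- (LM1), coordinate form: two points with the same valuation data differ by a point of
  `E₀`. -/
  lm1 : ∀ {x y x' y' : K} (h : W.Nonsingular x y) (h' : W.Nonsingular x' y'),
    A.valuation x' = A.valuation x → A.valuation y' = A.valuation y →
    A.valuation (y' + x') = A.valuation (y + x) →
    Nodal.IsIdent A (Point.some x' y' h' - Point.some x y h)
  /-- (LM4): the product formula on a non-identity component. -/
  lm4 : ∀ Q : W.Point, ¬ Nodal.IsIdent A Q → p • Q = 0 →
    ∏ j ∈ Finset.Ico 1 (p / 2 + 1), A.valuation (xCoord W (j • Q)) ^ p =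
      A.valuation W.a₄ ^ ((p ^ 2 - 1) / 4)

end Fermat.Agent.S13
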