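import Fermat.Agent.S13.LocalTwo.FreyCoeff
import Fermat.Agent.S13.Nodal.Defs
import Fermat.Agent.S05.Inertia
import Fermat.Agent.Lib.EC.Reduction.ReductionMap

set_option autoImplicit false

/-!
# P-S13 WP-L2: reduction of the Frey curve modulo a valuation subring over `2`

The Frey curve `E : y² + x y = x³ + a₂ x² + a₄ x` is integral at `2` and reduces to the nodal
cubic `y² + x y = x³ + ā₂ x²` (characteristic `2`), with node `(0,0)`.  Hence
`E₀ = {O} ∪ {v(x) ≥ 1}` (`Nodal.IsIdent`), it is a subgroup, two points of `E₀` with congruent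
coordinates differ by an element of the kernel of reduction `E₁` (`KerRed`), the inertia group
acts trivially on `E₀ / E₁`, and `E₁` has no odd torsion.
-/

namespace Fermat.Agent.S13

open WeierstrassCurve WeierstrassCurve.Affine
open Fermat.Agent.Lib.EC

variable {K : Type*} [Field K] [Algebra ℚ K] (P : FreyPackage) {A : ValuationSubring K}
  (hA : (2 : K) ∈ A.nonunits)

/-- The Frey curve as a curve over the valuation subring `A`. -/
def freyA : WeierstrassCurve A :=
  ⟨1, ⟨_, frey_a₂_mem (K := K) P A⟩, 0, ⟨_, frey_a₄_mem (K := K) P hA⟩, 0⟩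

theorem freyA_map_subtype : (freyA P hA).map A.subtype = P.freyCurve.baseChange K := by
  have h1 := frey_a₁ (K := K) P
  have h3 := frey_a₃ (K := K) P
  have h6 := frey_a₆ (K := K) P
  ext
  · rw [map_a₁, h1]; exact map_one _
  · rfl
  · rw [map_a₃, h3]; exact map_zero _
  · rfl
  · rw [map_a₆, h6]; exact map_zero _

/-- The residue map. -/
local notation "π" => IsLocalRing.residue A

/-- The reduced curve `y² + x y = x³ + ā₂ x²`. -/
noncomputable def freyBar : WeierstrassCurve (IsLocalRing.ResidueField A) := (freyA P hA).map π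

theorem freyBar_a₁ : (freyBar P hA).a₁ = 1 := by
  rw [freyBar, map_a₁]; exact map_one _

theorem freyBar_a₃ : (freyBar P hA).a₃ = 0 := by
  rw [freyBar, map_a₃]; exact map_zero _

theorem freyBar_a₄ : (freyBar P hA).a₄ = 0 := by
  rw [freyBar, map_a₄]
  exact (pi_eq_zero_iff π _).mpr (valuation_frey_a₄_lt_one P hA)

theorem freyBar_a₆ : (freyBar P hA).a₆ = 0 := by
  rw [freyBar, map_a₆]; exact map_zero _

include hA in
omit [Algebra ℚ K] in
theorem residue_two : (2 : IsLocalRing.ResidueField A) = 0 := by
  have h : π (2 : A) = 0 := (pi_eq_zero_iff π _).mpr (by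
    have : ((2 : A) : K) = 2 := rfl
    rw [this]
    exact valuation_two_lt_one hA)
  rwa [map_ofNat] at h

theorem frey_isReduction : IsReduction π (P.freyCurve.baseChange K) (freyBar P hA) :=
  ⟨freyA P hA, freyA_map_subtype P hA, rfl⟩

include hA in
theorem frey_isIntegralOver : IsIntegralOver A (P.freyCurve⁄K) :=
  (frey_isReduction P hA).isIntegralOver

/-! ### Points with nonsingular reduction -/

section E0

include hA in
theorem frey_y_mem {x y : K} (h : (P.freyCurve⁄K).Nonsingular x y) (hx : x ∈ A) : y ∈ A := by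
  by_contra hy
  exact ((kerRed_some_iff_y (frey_isIntegralOver P hA) h).mpr hy) hx

theorem freyBar_equation_res {x y : K} (h : (P.freyCurve⁄K).Nonsingular x y) (hx : x ∈ A) :
    (freyBar P hA).toAffine.Equation (res π x) (res π y) := by
  have hy := frey_y_mem P hA h hx
  have he : ((freyA P hA).map A.subtype).toAffine.Equation (A.subtype ⟨x, hx⟩)
      (A.subtype ⟨y, hy⟩) := by
    rw [freyA_map_subtype]
    exact h.1
  have := equation_pi π (freyA P hA) he
  rw [res_of_mem π hx, res_of_mem π hy]
  exact this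

theorem freyBar_nonsingular_iff {x y : K} (h : (P.freyCurve⁄K).Nonsingular x y) (hx : x ∈ A) :
    (freyBar P hA).toAffine.Nonsingular (res π x) (res π y) ↔ A.valuation x = 1 := by
  have heq := freyBar_equation_res P hA h hx
  have hxle : A.valuation x ≤ 1 := (A.valuation_le_one_iff _).mpr hx
  rw [nonsingular_iff]
  rw [equation_iff] at heq
  simp only [freyBar_a₁, freyBar_a₃, freyBar_a₄, freyBar_a₆] at heq ⊢
  constructor
  · rintro ⟨-, hns⟩
    by_contra hne
    have hlt : A.valuation x < 1 := lt_of_le_of_ne hxle hne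
    have hx0 : res π x = 0 := by
      rw [res_of_mem π hx]
      exact (pi_eq_zero_iff π _).mpr hlt
    rw [hx0] at heq hns
    have hy0 : res π y = 0 := by
      have : res π y ^ 2 = 0 := by linear_combination heq
      exact pow_eq_zero_iff (two_ne_zero) |>.mp this
    rw [hy0] at hns
    rcases hns with h1 | h1
    · exact h1 (by ring)
    · exact h1 (by ring)
  · intro h1
    refine ⟨by rw [equation_iff]; simp only [freyBar_a₁, freyBar_a₃, freyBar_a₄, freyBar_a₆]; exact heq, Or.inr ?_⟩
    intro hcon
    have hx0 : res π x ≠ 0 := by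
      rw [res_of_mem π hx]
      exact (pi_ne_zero_iff π _).mpr h1
    apply hx0
    have h2 := residue_two hA
    linear_combination hcon - res π y * h2

theorem isE0_iff_isIdent (R : (P.freyCurve⁄K).Point) :
    IsE0 π (P.freyCurve⁄K) (freyBar P hA).toAffine R ↔ Nodal.IsIdent A R := by
  rcases R with _ | ⟨x, y, h⟩
  · exact Iff.rfl
  · rw [isE0_some, Nodal.isIdent_some]
    constructor
    · intro hE
      by_cases hx : x ∈ A
      · exact ((freyBar_nonsingular_iff P hA h hx).mp (hE hx)).ge
      · rw [← A.valuation_le_one_iff, not_le] at hx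
        exact hx.le
    · intro h1 hx
      exact (freyBar_nonsingular_iff P hA h hx).mpr
        (le_antisymm ((A.valuation_le_one_iff _).mpr hx) h1)

end E0

/-! ### `E₀` is a subgroup; congruent points differ by an element of `E₁` -/

section Group

variable [DecidableEq K]

include hA

omit [DecidableEq K] in
theorem isIdent_neg {R : (P.freyCurve⁄K).Point} (hR : Nodal.IsIdent A R) :
    Nodal.IsIdent A (-R) := by
  rw [← isE0_iff_isIdent P hA] at hR ⊢
  exact (frey_isReduction P hA).isE0_neg hR

theorem isIdent_add {R S : (P.freyCurve⁄K).Point} (hR : Nodal.IsIdent A R)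
    (hS : Nodal.IsIdent A S) : Nodal.IsIdent A (R + S) := by
  classical
  rw [← isE0_iff_isIdent P hA] at hR hS ⊢
  exact ((frey_isReduction P hA).red_add hR hS).1

theorem isIdent_sub {R S : (P.freyCurve⁄K).Point} (hR : Nodal.IsIdent A R)
    (hS : Nodal.IsIdent A S) : Nodal.IsIdent A (R - S) := by
  rw [sub_eq_add_neg]
  exact isIdent_add P hA hR (isIdent_neg P hA hS)

theorem isIdent_nsmul {R : (P.freyCurve⁄K).Point} (hR : Nodal.IsIdent A R) (n : ℕ) :
    Nodal.IsIdent A (n • R) := by
  induction n with
  | zero => rw [zero_smul]; exact Nodal.isIdent_zero A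
  | succ n ih => rw [succ_nsmul]; exact isIdent_add P hA ih hR

omit [DecidableEq K] in
theorem isIdent_of_kerRed {R : (P.freyCurve⁄K).Point} (hR : KerRed A R) :
    Nodal.IsIdent A R := by
  rw [← isE0_iff_isIdent P hA]
  exact isE0_of_kerRed π hR

/-- Two affine points with unit `x`-coordinate and congruent coordinates differ by an element of
the kernel of reduction. -/
theorem kerRed_sub_of_congr {x y x' y' : K} (h : (P.freyCurve⁄K).Nonsingular x y)
    (h' : (P.freyCurve⁄K).Nonsingular x' y') (hx1 : A.valuation x = 1)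
    (hxx : A.valuation (x' - x) < 1) (hyy : A.valuation (y' - y) < 1) :
    KerRed A (Point.some x' y' h' - Point.some x y h) := by
  classical
  have hR := frey_isReduction P hA
  have hx : x ∈ A := (A.valuation_le_one_iff _).mp hx1.le
  have hy : y ∈ A := frey_y_mem P hA h hx
  have hx'1 : A.valuation x' = 1 := by
    rw [← hx1]
    exact Valuation.map_eq_of_sub_lt _ (by rw [hx1]; exact hxx)
  have hx' : x' ∈ A := (A.valuation_le_one_iff _).mp hx'1.le
  have hy' : y' ∈ A := frey_y_mem P hA h' hx'
  have ex : res π x' = res π x := (res_eq_iff π hx' hx).mpr hxx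
  have ey : res π y' = res π y := (res_eq_iff π hy' hy).mpr hyy
  have n := (freyBar_nonsingular_iff P hA h hx).mpr hx1
  have n' := (freyBar_nonsingular_iff P hA h' hx').mpr hx'1
  have E0 : IsE0 π (P.freyCurve⁄K) (freyBar P hA).toAffine (Point.some x y h) :=
    (isE0_iff_isIdent P hA _).mpr ((Nodal.isIdent_some A h).mpr hx1.ge)
  have E0' : IsE0 π (P.freyCurve⁄K) (freyBar P hA).toAffine (Point.some x' y' h') :=
    (isE0_iff_isIdent P hA _).mpr ((Nodal.isIdent_some A h').mpr hx'1.ge)
  have hred : red π (P.freyCurve⁄K) (freyBar P hA).toAffine (Point.some x' y' h') =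
      red π (P.freyCurve⁄K) (freyBar P hA).toAffine (Point.some x y h) := by
    rw [red_some_of_mem π h hx hy n, red_some_of_mem π h' hx' hy' n']
    exact some_congr _ ex ey _
  obtain ⟨s1, s2⟩ := hR.red_add E0' (hR.isE0_neg E0)
  rw [hR.red_neg, hred, add_neg_cancel] at s2
  rw [sub_eq_add_neg]
  exact (red_eq_zero_iff π hR.isIntegralOver s1).mp s2

/-- The kernel of reduction has no `p`-torsion. -/
theorem eq_zero_of_kerRed_of_torsion {R : (P.freyCurve⁄K).Point} (hR : KerRed A R)
    (hpR : P.p • R = 0) : R = 0 := by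
  refine eq_zero_of_kerRed_of_nsmul_eq_zero (frey_isIntegralOver P hA) ?_ hR hpR
  have hodd : ¬ (2 : ℤ) ∣ (P.p : ℤ) := by
    have := P.hp_odd
    rw [← even_iff_two_dvd, Int.not_even_iff_odd]
    exact_mod_cast this
  have := valuation_odd_eq_one hA hodd
  rwa [Int.cast_natCast] at this

/-- (L0): the inertia group at `2` acts trivially on `E₀ / E₁`. -/
theorem kerRed_map_sub_of_isIdent {σ : K ≃ₐ[ℚ] K} (hσ : σ ∈ A.inertiaSubgroupIn ℚ)
    {R : (P.freyCurve⁄K).Point} (hR : Nodal.IsIdent A R) :
    KerRed A (Point.map (W' := P.freyCurve) σ.toAlgHom R - R) := by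
  rcases R with _ | ⟨x, y, h⟩
  · change KerRed A (Point.map (W' := P.freyCurve) σ.toAlgHom 0 - 0)
    rw [map_zero, sub_zero]
    exact kerRed_zero A
  · rw [Point.map_some]
    rw [Nodal.isIdent_some] at hR
    by_cases hx : x ∈ A
    · have hx1 : A.valuation x = 1 := le_antisymm ((A.valuation_le_one_iff _).mpr hx) hR
      have hy : y ∈ A := frey_y_mem P hA h hx
      exact kerRed_sub_of_congr P hA h _ hx1 (Fermat.Agent.S05.inertia_sub_lt_one hσ hx)
        (Fermat.Agent.S05.inertia_sub_lt_one hσ hy)
    · refine kerRed_sub (frey_isIntegralOver P hA) ?_ hx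
      rw [kerRed_some]
      intro hσx
      exact hx ((Fermat.Agent.S05.inertia_map_mem_iff hσ).mp hσx)

/-- The inertia group at `2` fixes the `p`-torsion points of `E₀`. -/
theorem map_eq_self_of_isIdent {σ : K ≃ₐ[ℚ] K} (hσ : σ ∈ A.inertiaSubgroupIn ℚ)
    {R : (P.freyCurve⁄K).Point} (hR : Nodal.IsIdent A R) (hpR : P.p • R = 0) :
    Point.map (W' := P.freyCurve) σ.toAlgHom R = R := by
  have h1 := kerRed_map_sub_of_isIdent P hA hσ hR
  have h2 : P.p • (Point.map (W' := P.freyCurve) σ.toAlgHom R - R) = 0 := by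
    rw [smul_sub, ← map_nsmul, hpR, map_zero, sub_zero]
  exact sub_eq_zero.mp (eq_zero_of_kerRed_of_torsion P hA h1 h2)

end Group

end Fermat.Agent.S13
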