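import Fermat.Agent.S13.LocalTwo.FreyLM
import Fermat.Agent.S13.LocalTwo.Reduction
import Fermat.Agent.S13.LocalP.Rational
import Fermat.Agent.S13.LocalP.Flag
import Fermat.Prelude.Def_FLTPrelim_CofixedLine
import Fermat.Prelude.Def_FLTPrelim_Ramification

set_option autoImplicit false

/-!
# P-S13 WP-L2: the local analysis of a Galois stable line at the prime `2`

`K` an algebraically closed field, algebraic (and Galois) over `ℚ`; `A` a valuation subring of `K`
over `2`; `T = E[p](K)` for the Frey curve `E`; `N ⊂ T` a Galois stable line.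

* `(2a)`: `σ ∈ I_A` maps `T` into `T₀ = T ∩ E₀` by `σ - 1` and fixes `T₀`;
* `(2c)`: `N ⊂ T₀`;
* `(U2)` `inertia_two`: `I_A` acts trivially on `N` and on `T / N`;
* `(R2)` `eq_zero_of_fixed_two`: `N` contains no nonzero Galois-fixed point.
-/

namespace Fermat.Agent.S13

open WeierstrassCurve WeierstrassCurve.Affine WeierstrassCurve.Affine.Point
open Fermat.Agent.Lib.EC.LocalOrder (xCoord)
open Fermat.Agent.Lib.EC (KerRed)

variable {K : Type*} [Field K] [DecidableEq K] [Algebra ℚ K] (P : FreyPackage)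

/-! ### Coercions -/

section Coe

theorem coe_galois_smul (σ : K ≃ₐ[ℚ] K)
    (x : Submodule.torsionBy ℤ (P.freyCurve⁄K).Point P.p) :
    ((σ • x : Submodule.torsionBy ℤ (P.freyCurve⁄K).Point P.p) : (P.freyCurve⁄K).Point) =
      Point.map (W' := P.freyCurve) σ.toAlgHom (x : (P.freyCurve⁄K).Point) := rfl

theorem nsmul_coe_tors (x : Submodule.torsionBy ℤ (P.freyCurve⁄K).Point P.p) :
    P.p • (x : (P.freyCurve⁄K).Point) = 0 := by
  have := (Submodule.mem_torsionBy_iff _ _).mp x.2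
  rwa [natCast_zsmul] at this

theorem zmod_smul_eq (c : ZMod P.p) (x : Submodule.torsionBy ℤ (P.freyCurve⁄K).Point P.p) :
    c • x = c.val • x := by
  have : NeZero P.p := ⟨P.hp0⟩
  conv_lhs => rw [← ZMod.natCast_zmod_val c]
  exact Nat.cast_smul_eq_nsmul _ _ _

theorem coe_nsmul_tors (n : ℕ) (x : Submodule.torsionBy ℤ (P.freyCurve⁄K).Point P.p) :
    ((n • x : Submodule.torsionBy ℤ (P.freyCurve⁄K).Point P.p) : (P.freyCurve⁄K).Point) =
      n • (x : (P.freyCurve⁄K).Point) := by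
  induction n with
  | zero => simp
  | succ n ih => rw [succ_nsmul, succ_nsmul, Submodule.coe_add, ih]

end Coe

/-! ### The submodule `T₀ = T ∩ E₀` -/

section TZero

variable {A : ValuationSubring K} (hA : (2 : K) ∈ A.nonunits)

/-- `T₀ = T ∩ E₀`. -/
def torsZero : Submodule (ZMod P.p) (Submodule.torsionBy ℤ (P.freyCurve⁄K).Point P.p) where
  carrier := {x | Nodal.IsIdent A (x : (P.freyCurve⁄K).Point)}
  add_mem' := by
    intro x y hx hy
    show Nodal.IsIdent A ((x + y : Submodule.torsionBy ℤ (P.freyCurve⁄K).Point P.p) :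
      (P.freyCurve⁄K).Point)
    rw [Submodule.coe_add]
    exact isIdent_add P hA hx hy
  zero_mem' := Nodal.isIdent_zero (W := (P.freyCurve⁄K)) A
  smul_mem' := by
    intro c x hx
    show Nodal.IsIdent A ((c • x : Submodule.torsionBy ℤ (P.freyCurve⁄K).Point P.p) :
      (P.freyCurve⁄K).Point)
    rw [zmod_smul_eq, coe_nsmul_tors]
    exact isIdent_nsmul P hA hx _

theorem mem_torsZero (x : Submodule.torsionBy ℤ (P.freyCurve⁄K).Point P.p) :
    x ∈ torsZero P hA ↔ Nodal.IsIdent A (x : (P.freyCurve⁄K).Point) := Iff.rfl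

end TZero

/-! ### (2a): the action of inertia -/

section Inertia

variable [IsAlgClosed K] [Algebra.IsAlgebraic ℚ K] {A : ValuationSubring K}
  (hA : (2 : K) ∈ A.nonunits)
  (H : ∀ W : Affine K, Nodal.NodalData A W → LMInput P.p A W)
  {σ : K ≃ₐ[ℚ] K} (hσ : σ ∈ A.inertiaSubgroupIn ℚ)

include H hσ in
theorem galois_sub_mem_torsZero (x : Submodule.torsionBy ℤ (P.freyCurve⁄K).Point P.p) :
    σ • x - x ∈ torsZero P hA := by
  rw [mem_torsZero, AddSubgroupClass.coe_sub, coe_galois_smul]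
  exact isIdent_map_sub P hA H hσ _

omit [IsAlgClosed K] [Algebra.IsAlgebraic ℚ K] in
include hσ in
theorem galois_smul_eq_of_mem_torsZero {x : Submodule.torsionBy ℤ (P.freyCurve⁄K).Point P.p}
    (hx : x ∈ torsZero P hA) : σ • x = x := by
  apply Subtype.ext
  rw [coe_galois_smul]
  exact map_eq_self_of_isIdent P hA hσ hx (nsmul_coe_tors P x)

end Inertia

/-! ### Arithmetic -/

section Arith

theorem not_dvd_quarter : ¬ P.p ∣ (P.p ^ 2 - 1) / 4 := by
  obtain ⟨k, hk⟩ := P.hp_odd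
  have hp5 := P.hp5
  have h1 : P.p ^ 2 = 4 * (k * (k + 1)) + 1 := by rw [hk]; ring
  have h2 : (P.p ^ 2 - 1) / 4 = k * (k + 1) := by
    rw [h1, Nat.add_sub_cancel, Nat.mul_div_cancel_left _ (by norm_num)]
  rw [h2]
  intro hd
  rcases (Nat.Prime.dvd_mul P.pp).mp hd with h | h
  · have := Nat.le_of_dvd (by omega) h
    omega
  · have := Nat.le_of_dvd (by omega) h
    omega

theorem zpow_contra {Γ : Type*} [LinearOrderedCommGroupWithZero Γ] {t : Γ} (ht0 : 0 < t)
    (ht1 : t < 1) {p m M : ℕ} {z : ℤ} (hp : p.Prime) (hm : ¬ p ∣ m) (hM : ¬ p ∣ M)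
    (h : (t ^ z) ^ p = (t ^ m) ^ M) : False := by
  have h1 : t ^ (z * (p : ℤ)) = t ^ (((m * M : ℕ)) : ℤ) := by
    rw [zpow_mul, zpow_natCast, zpow_natCast, h, ← pow_mul]
  have h2 : z * (p : ℤ) = ((m * M : ℕ) : ℤ) := zpow_right_injective₀ ht0 ht1.ne h1
  have h3 : (p : ℤ) ∣ ((m * M : ℕ) : ℤ) := Dvd.intro_left z h2
  rw [Int.natCast_dvd_natCast] at h3
  rcases (Nat.Prime.dvd_mul hp).mp h3 with h | h
  · exact hm h
  · exact hM h

end Arith

/-! ### (2c): a Galois stable line lies in `E₀` -/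

section Line

omit [DecidableEq K] [Algebra ℚ K] in
theorem xc_eq_xCoord {W : Affine K} (Q : W.Point) : LocalP.xc Q = xCoord W Q := by
  cases Q <;> rfl

theorem finrank_tors_eq_two [Fact P.p.Prime]
    (hcard : Nat.card (Submodule.torsionBy ℤ (P.freyCurve⁄K).Point P.p) = P.p ^ 2) :
    Module.Finite (ZMod P.p) (Submodule.torsionBy ℤ (P.freyCurve⁄K).Point P.p) ∧
      Module.finrank (ZMod P.p) (Submodule.torsionBy ℤ (P.freyCurve⁄K).Point P.p) = 2 := by
  have hfin : Finite (Submodule.torsionBy ℤ (P.freyCurve⁄K).Point P.p) := by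
    apply Nat.finite_of_card_ne_zero
    rw [hcard]
    exact pow_ne_zero _ P.hp0
  have hmf : Module.Finite (ZMod P.p) (Submodule.torsionBy ℤ (P.freyCurve⁄K).Point P.p) :=
    Module.Finite.of_finite
  refine ⟨hmf, ?_⟩
  have h := Module.natCard_eq_pow_finrank (K := ZMod P.p)
    (V := Submodule.torsionBy ℤ (P.freyCurve⁄K).Point P.p)
  rw [hcard, Nat.card_zmod] at h
  exact (Nat.pow_right_injective P.pp.two_le h).symm

variable [IsAlgClosed K] [Algebra.IsAlgebraic ℚ K] [IsGalois ℚ K] {A : ValuationSubring K}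
  (hA : (2 : K) ∈ A.nonunits)
  (H : ∀ W : Affine K, Nodal.NodalData A W → LMInput P.p A W)
  (hcard : Nat.card (Submodule.torsionBy ℤ (P.freyCurve⁄K).Point P.p) = P.p ^ 2)
  (N : Submodule (ZMod P.p) (Submodule.torsionBy ℤ (P.freyCurve⁄K).Point P.p))
  (hN : IsGaloisStable ℚ N) (hN0 : N ≠ ⊥) (hN1 : N ≠ ⊤)

omit [Algebra.IsAlgebraic ℚ K] in
include H hcard hN hN0 hN1 in
/-- (2c): a Galois stable line is contained in `E₀`. -/
theorem le_torsZero : N ≤ torsZero P hA := by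
  intro x hx
  by_contra hx0
  rw [mem_torsZero] at hx0
  have : Fact P.p.Prime := ⟨P.pp⟩
  obtain ⟨hmf, h2⟩ := finrank_tors_eq_two P hcard
  have hxne : x ≠ 0 := by
    rintro rfl
    exact hx0 (Nodal.isIdent_zero (W := (P.freyCurve⁄K)) A)
  have hx1ne : (x : (P.freyCurve⁄K).Point) ≠ 0 := fun h => hxne (Subtype.ext h)
  have hpx := nsmul_coe_tors P x
  -- the Galois group acts on `x` through scalars
  have hstab : ∀ σ : K ≃ₐ[ℚ] K, ∃ k : ℕ,
      Point.map (W' := P.freyCurve) σ.toAlgHom (x : (P.freyCurve⁄K).Point) =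
        k • (x : (P.freyCurve⁄K).Point) := by
    intro σ
    obtain ⟨c, hc⟩ := LocalP.exists_smul_eq_of_line h2 hN0 hN1 hx hxne (hN σ x hx)
    refine ⟨c.val, ?_⟩
    rw [← coe_galois_smul, ← hc, zmod_smul_eq, coe_nsmul_tors]
  -- the half product is rational
  set g₀ : K := LocalP.halfProd P.p (x : (P.freyCurve⁄K).Point) with hg₀
  have hfix : ∀ σ : K ≃ₐ[ℚ] K, σ g₀ = g₀ := by
    intro σ
    obtain ⟨k, hk⟩ := hstab σ
    exact LocalP.halfProd_fixed hpx hx1ne σ hk
  obtain ⟨r, hr⟩ := (InfiniteGalois.mem_range_algebraMap_iff_fixed g₀).mpr hfix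
  -- its valuation
  have hprod := prod_valuation_xCoord_frey P hA H _ hx0 hpx
  have hval : A.valuation g₀ ^ P.p = A.valuation (P.freyCurve⁄K).a₄ ^ ((P.p ^ 2 - 1) / 4) := by
    rw [← hprod, hg₀, LocalP.halfProd, map_prod, ← Finset.prod_pow]
    refine Finset.prod_congr rfl fun j _ => ?_
    rw [xc_eq_xCoord]
  obtain ⟨m, hm0, hmp, hβ⟩ := exists_valuation_frey_a₄ (K := K) P hA
  have hchar : CharZero K := algebraRat.charZero K
  have h2pos : 0 < A.valuation (2 : K) := (Valuation.pos_iff _).mpr two_ne_zero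
  have h2lt := valuation_two_lt_one hA
  have hr0 : r ≠ 0 := by
    rintro rfl
    rw [_root_.map_zero] at hr
    rw [← hr, _root_.map_zero, zero_pow P.hp0, hβ, ← pow_mul] at hval
    exact (pow_ne_zero _ h2pos.ne') hval.symm
  obtain ⟨z, hz⟩ := exists_valuation_rat_eq hA hr0
  rw [hr] at hz
  rw [hz, hβ] at hval
  exact zpow_contra h2pos h2lt P.pp hmp (not_dvd_quarter P) hval

include hA H hcard hN hN0 hN1 in
/-- **(U2)**: the inertia group at `2` acts trivially on a Galois stable line `N` and on `T / N`. -/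
theorem inertia_two {σ : K ≃ₐ[ℚ] K} (hσ : σ ∈ A.inertiaSubgroupIn ℚ) :
    (∀ x ∈ N, σ • x = x) ∧
      ∀ x : Submodule.torsionBy ℤ (P.freyCurve⁄K).Point P.p, σ • x - x ∈ N := by
  have hle := le_torsZero P hA H hcard N hN hN0 hN1
  refine ⟨fun x hx => galois_smul_eq_of_mem_torsZero P hA hσ (hle hx), fun x => ?_⟩
  have : Fact P.p.Prime := ⟨P.pp⟩
  obtain ⟨hmf, h2⟩ := finrank_tors_eq_two P hcard
  have hmem := galois_sub_mem_torsZero P hA H hσ x
  by_cases htop : torsZero P hA = ⊤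
  · have hx : x ∈ torsZero P hA := by rw [htop]; exact Submodule.mem_top
    rw [galois_smul_eq_of_mem_torsZero P hA hσ hx, sub_self]
    exact N.zero_mem
  · rcases LocalP.le_or_inf_eq_bot h2 hN0 hN1 htop with h | h
    · exact h hmem
    · exfalso
      apply hN0
      rw [← h]
      exact (inf_eq_right.mpr hle).symm

end Line

/-! ### (R2): no Galois-fixed point on a stable line -/

section Fixed

variable [IsGalois ℚ K] {A : ValuationSubring K} (hA : (2 : K) ∈ A.nonunits)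

include hA in
/-- A nonzero Galois-fixed `p`-torsion point of `E₀` is affine with rational coordinates,
`x ≡ 1` and `y ≡ 0` or `1` modulo the maximal ideal. -/
theorem fixed_point_data {Q : (P.freyCurve⁄K).Point} (hQ0 : Q ≠ 0) (hQ : Nodal.IsIdent A Q)
    (hpQ : P.p • Q = 0)
    (hfix : ∀ σ : K ≃ₐ[ℚ] K, Point.map (W' := P.freyCurve) σ.toAlgHom Q = Q) :
    ∃ (x y : K) (h : (P.freyCurve⁄K).Nonsingular x y), Q = Point.some x y h ∧
      A.valuation x = 1 ∧ A.valuation (x - 1) < 1 ∧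
      (A.valuation y < 1 ∨ A.valuation (y - 1) < 1) := by
  rcases Q with _ | ⟨x, y, h⟩
  · exact absurd rfl hQ0
  · have hxy : ∀ σ : K ≃ₐ[ℚ] K, σ x = x ∧ σ y = y := by
      intro σ
      have := hfix σ
      rw [Point.map_some, Point.some.injEq] at this
      exact this
    obtain ⟨r, hr⟩ := (InfiniteGalois.mem_range_algebraMap_iff_fixed x).mpr fun σ => (hxy σ).1
    obtain ⟨s, hs⟩ := (InfiniteGalois.mem_range_algebraMap_iff_fixed y).mpr fun σ => (hxy σ).2
    have hxA : x ∈ A := by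
      by_contra hx
      exact hQ0 (eq_zero_of_kerRed_of_torsion P hA (R := Point.some x y h) hx hpQ)
    have hyA : y ∈ A := frey_y_mem P hA h hxA
    have hx1 : A.valuation x = 1 :=
      le_antisymm ((A.valuation_le_one_iff _).mpr hxA) ((Nodal.isIdent_some A h).mp hQ)
    refine ⟨x, y, h, rfl, hx1, ?_, ?_⟩
    · rw [← hr] at hxA hx1 ⊢
      rcases rat_lt_one_or_sub_one_lt_one hA hxA with h1 | h1
      · rw [hx1] at h1
        exact absurd h1 (lt_irrefl _)
      · exact h1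
    · rw [← hs] at hyA ⊢
      exact rat_lt_one_or_sub_one_lt_one hA hyA

include hA in
omit [IsGalois ℚ K] in
/-- Two `p`-torsion points of `E₀ ∖ E₁` with congruent coordinates are equal. -/
theorem eq_of_congr {x y x' y' : K} (h : (P.freyCurve⁄K).Nonsingular x y)
    (h' : (P.freyCurve⁄K).Nonsingular x' y') (hx1 : A.valuation x = 1)
    (hxx : A.valuation (x' - x) < 1) (hyy : A.valuation (y' - y) < 1)
    (hp : P.p • Point.some x y h = 0) (hp' : P.p • Point.some x' y' h' = 0) :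
    Point.some x' y' h' = Point.some x y h := by
  have hk := kerRed_sub_of_congr P hA h h' hx1 hxx hyy
  have h0 : P.p • (Point.some x' y' h' - Point.some x y h) = 0 := by
    rw [smul_sub, hp, hp', sub_zero]
  exact sub_eq_zero.mp (eq_zero_of_kerRed_of_torsion P hA hk h0)

include hA in
omit [IsGalois ℚ K] in
theorem eq_of_data {x y x' y' : K} (h : (P.freyCurve⁄K).Nonsingular x y)
    (h' : (P.freyCurve⁄K).Nonsingular x' y') (hx1 : A.valuation x = 1)
    (cx : A.valuation (x - 1) < 1) (cx' : A.valuation (x' - 1) < 1)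
    (hy : (A.valuation y < 1 ∧ A.valuation y' < 1) ∨
      (A.valuation (y - 1) < 1 ∧ A.valuation (y' - 1) < 1))
    (hp : P.p • Point.some x y h = 0) (hp' : P.p • Point.some x' y' h' = 0) :
    Point.some x' y' h' = Point.some x y h := by
  refine eq_of_congr P hA h h' hx1 ?_ ?_ hp hp'
  · have : x' - x = (x' - 1) - (x - 1) := by ring
    rw [this]
    exact Valuation.map_sub_lt _ cx' cx
  · rcases hy with ⟨a, b⟩ | ⟨a, b⟩
    · exact Valuation.map_sub_lt _ b a
    · have : y' - y = (y' - 1) - (y - 1) := by ring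
      rw [this]
      exact Valuation.map_sub_lt _ b a

variable [IsAlgClosed K]
  (H : ∀ W : Affine K, Nodal.NodalData A W → LMInput P.p A W)
  (hcard : Nat.card (Submodule.torsionBy ℤ (P.freyCurve⁄K).Point P.p) = P.p ^ 2)
  (N : Submodule (ZMod P.p) (Submodule.torsionBy ℤ (P.freyCurve⁄K).Point P.p))
  (hN : IsGaloisStable ℚ N) (hN0 : N ≠ ⊥) (hN1 : N ≠ ⊤)

include hA H hcard hN hN0 hN1 in
/-- **(R2)**: a Galois stable line contains no nonzero Galois-fixed point. -/
theorem eq_zero_of_fixed_two (x : Submodule.torsionBy ℤ (P.freyCurve⁄K).Point P.p) (hx : x ∈ N)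
    (hfix : ∀ σ : K ≃ₐ[ℚ] K, σ • x = x) : x = 0 := by
  by_contra hxne
  have hle := le_torsZero P hA H hcard N hN hN0 hN1
  have hI : Nodal.IsIdent A (x : (P.freyCurve⁄K).Point) := hle hx
  have hR0 : (x : (P.freyCurve⁄K).Point) ≠ 0 := fun h => hxne (Subtype.ext h)
  have hpR := nsmul_coe_tors P x
  have hfixR : ∀ σ : K ≃ₐ[ℚ] K,
      Point.map (W' := P.freyCurve) σ.toAlgHom (x : (P.freyCurve⁄K).Point) = x := by
    intro σ
    have := congrArg Subtype.val (hfix σ)
    rwa [coe_galois_smul] at this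
  generalize (x : (P.freyCurve⁄K).Point) = R at hI hR0 hpR hfixR
  have : Fact P.p.Prime := ⟨P.pp⟩
  have hp5 := P.hp5
  have hne : ∀ n : ℕ, 0 < n → n < P.p → n • R ≠ 0 := by
    intro n hn0 hnp h0
    rw [LocalP.nsmul_eq_zero_iff_of_prime hpR hR0, ZMod.natCast_eq_zero_iff] at h0
    have := Nat.le_of_dvd hn0 h0
    omega
  have key : ∀ i j : ℕ, j < i → i < P.p → i • R = j • R → False := by
    intro i j hji hip h
    apply hne (i - j) (by omega) (by omega)
    rw [sub_nsmul _ hji.le, h, add_neg_cancel]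
  have hdata : ∀ n : ℕ, 0 < n → n < P.p →
      ∃ (x y : K) (h : (P.freyCurve⁄K).Nonsingular x y), n • R = Point.some x y h ∧
        A.valuation x = 1 ∧ A.valuation (x - 1) < 1 ∧
        (A.valuation y < 1 ∨ A.valuation (y - 1) < 1) := by
    intro n hn0 hnp
    refine fixed_point_data P hA (hne n hn0 hnp) (isIdent_nsmul P hA hI n) ?_ ?_
    · rw [smul_comm, hpR, smul_zero]
    · intro σ
      rw [map_nsmul, hfixR]
  have htors : ∀ n : ℕ, P.p • (n • R) = 0 := fun n => by rw [smul_comm, hpR, smul_zero]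
  obtain ⟨x₁, y₁, h₁, e₁, u₁, c₁, d₁⟩ := hdata 1 (by omega) (by omega)
  obtain ⟨x₂, y₂, h₂, e₂, u₂, c₂, d₂⟩ := hdata 2 (by omega) (by omega)
  obtain ⟨x₃, y₃, h₃, e₃, u₃, c₃, d₃⟩ := hdata 3 (by omega) (by omega)
  have t₁ := htors 1
  have t₂ := htors 2
  have t₃ := htors 3
  rw [e₁] at t₁
  rw [e₂] at t₂
  rw [e₃] at t₃
  have k21 : Point.some x₂ y₂ h₂ = Point.some x₁ y₁ h₁ → False := fun h =>
    key 2 1 (by omega) (by omega) (by rw [e₁, e₂, h])
  have k31 : Point.some x₃ y₃ h₃ = Point.some x₁ y₁ h₁ → False := fun h =>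
    key 3 1 (by omega) (by omega) (by rw [e₁, e₃, h])
  have k32 : Point.some x₃ y₃ h₃ = Point.some x₂ y₂ h₂ → False := fun h =>
    key 3 2 (by omega) (by omega) (by rw [e₂, e₃, h])
  rcases d₁ with a | a <;> rcases d₂ with b | b <;> rcases d₃ with c | c
  · exact k21 (eq_of_data P hA h₁ h₂ u₁ c₁ c₂ (Or.inl ⟨a, b⟩) t₁ t₂)
  · exact k21 (eq_of_data P hA h₁ h₂ u₁ c₁ c₂ (Or.inl ⟨a, b⟩) t₁ t₂)
  · exact k31 (eq_of_data P hA h₁ h₃ u₁ c₁ c₃ (Or.inl ⟨a, c⟩) t₁ t₃)
  · exact k32 (eq_of_data P hA h₂ h₃ u₂ c₂ c₃ (Or.inr ⟨b, c⟩) t₂ t₃)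
  · exact k32 (eq_of_data P hA h₂ h₃ u₂ c₂ c₃ (Or.inl ⟨b, c⟩) t₂ t₃)
  · exact k31 (eq_of_data P hA h₁ h₃ u₁ c₁ c₃ (Or.inr ⟨a, c⟩) t₁ t₃)
  · exact k21 (eq_of_data P hA h₁ h₂ u₁ c₁ c₂ (Or.inr ⟨a, b⟩) t₁ t₂)
  · exact k21 (eq_of_data P hA h₁ h₂ u₁ c₁ c₂ (Or.inr ⟨a, b⟩) t₁ t₂)

end Fixed

end Fermat.Agent.S13
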