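import Mathlib

set_option autoImplicit false

/-!
# P-S13 WP-L2: automorphisms stabilising a valuation subring preserve the valuation

`K / F` an algebraic field extension, `A` a valuation subring of `K`, `σ : K ≃ₐ[F] K` with
`σ • A = A`.  Then `A.valuation (σ x) = A.valuation x` for every `x` (orbit argument: the orbit
of `x` under `σ` is finite, and `σ` is monotone for the valuation preorder).
-/

namespace Fermat.Agent.S13

open scoped Pointwise

variable {F K : Type*} [Field F] [Field K] [Algebra F K]

theorem map_mem_iff_of_smul_eq {A : ValuationSubring K} {σ : K ≃ₐ[F] K} (hσ : σ • A = A)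
    {x : K} : σ x ∈ A ↔ x ∈ A := by
  have h : σ • x ∈ σ • A ↔ x ∈ A := ValuationSubring.smul_mem_pointwise_smul_iff
  rw [hσ] at h
  exact h

theorem valuation_map_le_iff {A : ValuationSubring K} {σ : K ≃ₐ[F] K} (hσ : σ • A = A)
    (a b : K) : A.valuation (σ a) ≤ A.valuation (σ b) ↔ A.valuation a ≤ A.valuation b := by
  by_cases hb : b = 0
  · subst hb
    simp only [map_zero, le_zero_iff, Valuation.zero_iff, EmbeddingLike.map_eq_zero_iff]
  · have hσb : σ b ≠ 0 := by simpa using hb
    have hvb : 0 < A.valuation b := (Valuation.pos_iff _).mpr hb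
    have hvσb : 0 < A.valuation (σ b) := (Valuation.pos_iff _).mpr hσb
    have h1 : A.valuation a ≤ A.valuation b ↔ a / b ∈ A := by
      rw [← A.valuation_le_one_iff, map_div₀, div_le_one₀ hvb]
    have h2 : A.valuation (σ a) ≤ A.valuation (σ b) ↔ σ (a / b) ∈ A := by
      rw [← A.valuation_le_one_iff, map_div₀, map_div₀, div_le_one₀ hvσb]
    rw [h1, h2, map_mem_iff_of_smul_eq hσ]

theorem valuation_map_lt_iff {A : ValuationSubring K} {σ : K ≃ₐ[F] K} (hσ : σ • A = A)
    (a b : K) : A.valuation (σ a) < A.valuation (σ b) ↔ A.valuation a < A.valuation b := by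
  rw [← not_le, ← not_le, valuation_map_le_iff hσ]

/-- An automorphism of an algebraic extension stabilising a valuation subring preserves its
valuation. -/
theorem valuation_map_eq_of_smul_eq [Algebra.IsAlgebraic F K] {A : ValuationSubring K}
    {σ : K ≃ₐ[F] K} (hσ : σ • A = A) (x : K) : A.valuation (σ x) = A.valuation x := by
  by_contra hne
  -- the orbit of `x` is finite
  have hfin : (Set.range fun k : ℕ => (σ ^ k) x).Finite := by
    have hx : IsAlgebraic F x := Algebra.IsAlgebraic.isAlgebraic x
    refine ((minpoly F x).rootSet_finite K).subset ?_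
    rintro _ ⟨k, rfl⟩
    rw [Polynomial.mem_rootSet]
    refine ⟨minpoly.ne_zero hx.isIntegral, ?_⟩
    have := Polynomial.aeval_algHom_apply ((σ ^ k : K ≃ₐ[F] K) : K →ₐ[F] K) x (minpoly F x)
    rw [minpoly.aeval, map_zero] at this
    exact this
  have hninj : ¬ Function.Injective fun k : ℕ => (σ ^ k) x := fun hinj =>
    Set.infinite_range_of_injective hinj hfin
  apply hninj
  have hstep : ∀ k : ℕ, (σ ^ (k + 1)) x = σ ((σ ^ k) x) := fun k => by
    rw [pow_succ', AlgEquiv.mul_apply]
  rcases lt_or_gt_of_ne hne with hlt | hgt
  · -- `v (σ x) < v x`: strictly decreasing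
    have hanti : StrictAnti fun k : ℕ => A.valuation ((σ ^ k) x) := by
      apply strictAnti_nat_of_succ_lt
      intro k
      induction k with
      | zero => simpa using hlt
      | succ k ih =>
        show A.valuation ((σ ^ (k + 1 + 1)) x) < A.valuation ((σ ^ (k + 1)) x)
        rw [hstep (k + 1), hstep k, valuation_map_lt_iff hσ, ← hstep k]
        exact ih
    intro k l hkl
    exact hanti.injective (congrArg A.valuation hkl)
  · have hmono : StrictMono fun k : ℕ => A.valuation ((σ ^ k) x) := by
      apply strictMono_nat_of_lt_succ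
      intro k
      induction k with
      | zero => simpa using hgt
      | succ k ih =>
        show A.valuation ((σ ^ (k + 1)) x) < A.valuation ((σ ^ (k + 1 + 1)) x)
        rw [hstep (k + 1), hstep k, valuation_map_lt_iff hσ, ← hstep k]
        exact ih
    intro k l hkl
    exact hmono.injective (congrArg A.valuation hkl)

end Fermat.Agent.S13
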