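import Fermat.Agent.S13.LocalTwo.FreyCoeff
import Fermat.Agent.S13.LocalTwo.ValEq
import Fermat.Agent.S13.Nodal.Defs
import Fermat.Agent.S13.LocalTwo.Input
import Fermat.Agent.S05.Transfer
import Fermat.Agent.S05.Inertia
import Fermat.Agent.Lib.EC.FunctionField.LocalOrder

set_option autoImplicit false

/-!
# P-S13 WP-L2: transfer between the Frey curve and the nodal normal form at `2`

`E : y² + x y = x³ + a₂ x² + a₄ x`, `α² + α = a₂`, `u = 1 + 2 α`.  The change of variables
`C = ⟨u, 0, α, 0⟩` satisfies `C • E = N_{b'}`, `b' = a₄ / u⁴`, where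
`N_b : y² + x y = x³ + b x`.  The induced isomorphism `ψ : N_{b'}(K) → E(K)` is
`(X, Y) ↦ (u² X, u³ Y + u² α X)`.
-/

namespace Fermat.Agent.S13

open WeierstrassCurve WeierstrassCurve.Affine
open Fermat.Agent.Lib.EC.LocalOrder (xCoord)
open Fermat.Agent.S05 (Transfer.transferHom Transfer.transferFun Transfer.newX Transfer.newY)

variable {K : Type*} [Field K]

/-- The nodal normal form `y² + x y = x³ + b x`. -/
def nodalCurve (b : K) : WeierstrassCurve K := ⟨1, 0, 0, b, 0⟩

@[simp] theorem nodalCurve_a₁ (b : K) : (nodalCurve b).a₁ = 1 := rfl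
@[simp] theorem nodalCurve_a₂ (b : K) : (nodalCurve b).a₂ = 0 := rfl
@[simp] theorem nodalCurve_a₃ (b : K) : (nodalCurve b).a₃ = 0 := rfl
@[simp] theorem nodalCurve_a₄ (b : K) : (nodalCurve b).a₄ = b := rfl
@[simp] theorem nodalCurve_a₆ (b : K) : (nodalCurve b).a₆ = 0 := rfl

theorem isNodalModel_nodalCurve (b : K) : Nodal.IsNodalModel (nodalCurve b) :=
  ⟨rfl, rfl, rfl, rfl⟩

/-- The change of variables `(x, y) = (u² X, u³ Y + u² α X)`. -/
def nodalChange (α : K) (hu : 1 + 2 * α ≠ 0) : VariableChange K :=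
  ⟨Units.mk0 (1 + 2 * α) hu, 0, α, 0⟩

variable [Algebra ℚ K] (P : FreyPackage)

theorem nodalChange_smul {α : K} (hα : α ^ 2 + α = (P.freyCurve⁄K).a₂) (hu : 1 + 2 * α ≠ 0) :
    nodalChange α hu • (P.freyCurve.baseChange K) =
      nodalCurve ((P.freyCurve⁄K).a₄ / (1 + 2 * α) ^ 4) := by
  have h1 := frey_a₁ (K := K) P
  have h3 := frey_a₃ (K := K) P
  have h6 := frey_a₆ (K := K) P
  ext
  · simp only [variableChange_a₁, nodalChange, nodalCurve_a₁, Units.val_inv_eq_inv_val,
      Units.val_mk0, h1]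
    field_simp
  · simp only [variableChange_a₂, nodalChange, nodalCurve_a₂, Units.val_inv_eq_inv_val,
      Units.val_mk0, h1]
    rw [← hα]
    field_simp
    ring
  · simp only [variableChange_a₃, nodalChange, nodalCurve_a₃, Units.val_inv_eq_inv_val,
      Units.val_mk0, h1, h3]
    ring
  · simp only [variableChange_a₄, nodalChange, nodalCurve_a₄, Units.val_inv_eq_inv_val,
      Units.val_mk0, h1, h3]
    field_simp
    ring
  · simp only [variableChange_a₆, nodalChange, nodalCurve_a₆, Units.val_inv_eq_inv_val,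
      Units.val_mk0, h1, h3, h6]
    ring

section Alpha

variable {A : ValuationSubring K} {α : K}

/-- A root of `X² + X - a₂` is integral. -/
theorem alpha_mem (hα : α ^ 2 + α = (P.freyCurve⁄K).a₂) (A : ValuationSubring K) : α ∈ A := by
  by_contra hαA
  rw [← A.valuation_le_one_iff, not_le] at hαA
  have h1 : A.valuation α < A.valuation (α ^ 2) := by
    rw [map_pow, pow_two]
    exact lt_mul_of_one_lt_left (lt_trans one_pos hαA) hαA
  have h2 : A.valuation (α ^ 2 + α) = A.valuation (α ^ 2) :=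
    Valuation.map_add_eq_of_lt_left _ h1
  have h3 : A.valuation (α ^ 2 + α) ≤ 1 := by
    rw [hα, A.valuation_le_one_iff]
    exact frey_a₂_mem P A
  rw [h2] at h3
  exact absurd (lt_trans hαA h1) (not_lt.mpr h3)

theorem valuation_u_eq_one (hα : α ^ 2 + α = (P.freyCurve⁄K).a₂) (hA : (2 : K) ∈ A.nonunits) :
    A.valuation (1 + 2 * α) = 1 := by
  apply Valuation.map_one_add_of_lt
  rw [map_mul]
  calc A.valuation 2 * A.valuation α ≤ A.valuation 2 * 1 :=
        mul_le_mul' le_rfl ((A.valuation_le_one_iff _).mpr (alpha_mem P hα A))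
    _ = A.valuation 2 := mul_one _
    _ < 1 := valuation_two_lt_one hA

theorem u_ne_zero (hα : α ^ 2 + α = (P.freyCurve⁄K).a₂) (hA : (2 : K) ∈ A.nonunits) :
    1 + 2 * α ≠ 0 := by
  intro h
  have := valuation_u_eq_one P hα hA
  rw [h, map_zero] at this
  exact zero_ne_one this

/-- Elements of the inertia group at `2` fix `α`: the two roots `α`, `-1-α` of `X² + X - a₂`
differ by the unit `u`. -/
theorem inertia_fixes_alpha (hα : α ^ 2 + α = (P.freyCurve⁄K).a₂) (hA : (2 : K) ∈ A.nonunits)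
    {σ : K ≃ₐ[ℚ] K} (hσ : σ ∈ A.inertiaSubgroupIn ℚ) : σ α = α := by
  have hroot : (σ α) ^ 2 + σ α = α ^ 2 + α := by
    rw [← map_pow, ← map_add, hα]
    show σ (algebraMap ℚ K _) = algebraMap ℚ K _
    exact σ.commutes _
  have hfac : (σ α - α) * (σ α + α + 1) = 0 := by linear_combination hroot
  rcases mul_eq_zero.mp hfac with h | h
  · exact sub_eq_zero.mp h
  · exfalso
    have h1 := Fermat.Agent.S05.inertia_sub_lt_one hσ (alpha_mem P hα A)
    have h2 : σ α - α = -(1 + 2 * α) := by linear_combination h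
    rw [h2, Valuation.map_neg, valuation_u_eq_one P hα hA] at h1
    exact lt_irrefl _ h1

end Alpha

/-! ### The transfer map -/

section Psi

variable [DecidableEq K] {α : K}

/-- The parameter `b' = a₄ / u⁴` of the nodal model. -/
def nodalB (α : K) : K := (P.freyCurve⁄K).a₄ / (1 + 2 * α) ^ 4

omit [DecidableEq K] in
theorem nodalChange_smul' (hα : α ^ 2 + α = (P.freyCurve⁄K).a₂) (hu : 1 + 2 * α ≠ 0) :
    nodalChange α hu • (P.freyCurve.baseChange K) = nodalCurve (nodalB P α) :=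
  nodalChange_smul P hα hu

/-- The transfer isomorphism `ψ : N_{b'}(K) → E(K)`, `(X, Y) ↦ (u² X, u³ Y + u² α X)`. -/
noncomputable def psi (hα : α ^ 2 + α = (P.freyCurve⁄K).a₂) (hu : 1 + 2 * α ≠ 0) :
    (nodalCurve (nodalB P α)).toAffine.Point →+ (P.freyCurve⁄K).Point :=
  Transfer.transferHom (nodalChange α hu) (nodalChange_smul' P hα hu)

omit [Algebra ℚ K] [DecidableEq K] in
theorem newX_nodalChange (hu : 1 + 2 * α ≠ 0) (X : K) :
    Transfer.newX (nodalChange α hu) X = (1 + 2 * α) ^ 2 * X := by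
  simp [Transfer.newX, nodalChange]

omit [Algebra ℚ K] [DecidableEq K] in
theorem newY_nodalChange (hu : 1 + 2 * α ≠ 0) (X Y : K) :
    Transfer.newY (nodalChange α hu) X Y = (1 + 2 * α) ^ 3 * Y + (1 + 2 * α) ^ 2 * α * X := by
  simp [Transfer.newY, nodalChange]

theorem psi_injective (hα : α ^ 2 + α = (P.freyCurve⁄K).a₂) (hu : 1 + 2 * α ≠ 0) :
    Function.Injective (psi P hα hu) :=
  Fermat.Agent.S05.Transfer.transferFun_injective (nodalChange α hu) (nodalChange_smul' P hα hu)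

theorem psi_some (hα : α ^ 2 + α = (P.freyCurve⁄K).a₂) (hu : 1 + 2 * α ≠ 0) {X Y : K}
    (h : (nodalCurve (nodalB P α)).toAffine.Nonsingular X Y) :
    ∃ h' : (P.freyCurve⁄K).Nonsingular ((1 + 2 * α) ^ 2 * X)
        ((1 + 2 * α) ^ 3 * Y + (1 + 2 * α) ^ 2 * α * X),
      psi P hα hu (Point.some X Y h) = Point.some _ _ h' := by
  have h0 := Fermat.Agent.S05.Transfer.transferFun_some (nodalChange α hu)
    (nodalChange_smul' P hα hu) h
  have hx := newX_nodalChange hu X
  have hy := newY_nodalChange hu X Y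
  have hns : (P.freyCurve⁄K).Nonsingular (Transfer.newX (nodalChange α hu) X)
      (Transfer.newY (nodalChange α hu) X Y) :=
    (Fermat.Agent.S05.Transfer.nonsingular_new (P.freyCurve.baseChange K)
      (nodalChange α hu) X Y).mpr (by rw [nodalChange_smul' P hα hu]; exact h)
  have hns' := hns
  rw [hx, hy] at hns'
  refine ⟨hns', ?_⟩
  rw [show psi P hα hu (Point.some X Y h) = Transfer.transferFun (nodalChange α hu)
    (nodalChange_smul' P hα hu) (Point.some X Y h) from rfl, h0]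
  congr 1

/-- Preimage of an affine point. -/
theorem exists_psi_eq_some (hα : α ^ 2 + α = (P.freyCurve⁄K).a₂) (hu : 1 + 2 * α ≠ 0) {x y : K}
    (h : (P.freyCurve⁄K).Nonsingular x y) :
    ∃ (X Y : K) (h' : (nodalCurve (nodalB P α)).toAffine.Nonsingular X Y),
      x = (1 + 2 * α) ^ 2 * X ∧ y = (1 + 2 * α) ^ 3 * Y + (1 + 2 * α) ^ 2 * α * X ∧
      psi P hα hu (Point.some X Y h') = Point.some x y h := by
  set u := 1 + 2 * α with hu_def
  have hx : x = u ^ 2 * (x / u ^ 2) := by field_simp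
  have hy : y = u ^ 3 * ((y - α * x) / u ^ 3) + u ^ 2 * α * (x / u ^ 2) := by
    field_simp
    ring
  have hns : (nodalCurve (nodalB P α)).toAffine.Nonsingular (x / u ^ 2) ((y - α * x) / u ^ 3) := by
    rw [← nodalChange_smul' P hα hu]
    apply (Fermat.Agent.S05.Transfer.nonsingular_new (P.freyCurve.baseChange K)
      (nodalChange α hu) _ _).mp
    rw [newX_nodalChange, newY_nodalChange, ← hx, ← hy]
    exact h
  refine ⟨x / u ^ 2, (y - α * x) / u ^ 3, hns, hx, hy, ?_⟩
  obtain ⟨h', he⟩ := psi_some P hα hu hns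
  rw [he]
  congr 1
  · exact hx.symm
  · exact hy.symm

theorem psi_surjective (hα : α ^ 2 + α = (P.freyCurve⁄K).a₂) (hu : 1 + 2 * α ≠ 0) :
    Function.Surjective (psi P hα hu) := by
  rintro (_ | ⟨x, y, h⟩)
  · exact ⟨0, map_zero _⟩
  · obtain ⟨X, Y, h', -, -, he⟩ := exists_psi_eq_some P hα hu h
    exact ⟨_, he⟩

theorem xCoord_psi (hα : α ^ 2 + α = (P.freyCurve⁄K).a₂) (hu : 1 + 2 * α ≠ 0)
    (Q : (nodalCurve (nodalB P α)).toAffine.Point) :
    xCoord _ (psi P hα hu Q) = (1 + 2 * α) ^ 2 * xCoord _ Q := by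
  rcases Q with _ | ⟨X, Y, h⟩
  · change xCoord _ (psi P hα hu 0) =
      (1 + 2 * α) ^ 2 * xCoord _ (0 : (nodalCurve (nodalB P α)).toAffine.Point)
    rw [map_zero, Fermat.Agent.Lib.EC.LocalOrder.xCoord_zero,
      Fermat.Agent.Lib.EC.LocalOrder.xCoord_zero, mul_zero]
  · obtain ⟨h', he⟩ := psi_some P hα hu h
    rw [he]
    simp

/-! ### Valuation data -/

variable {A : ValuationSubring K}

omit [DecidableEq K] in
theorem valuation_nodalB (hα : α ^ 2 + α = (P.freyCurve⁄K).a₂) (hA : (2 : K) ∈ A.nonunits) :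
    A.valuation (nodalB P α) = A.valuation (P.freyCurve⁄K).a₄ := by
  rw [nodalB, map_div₀, map_pow, valuation_u_eq_one P hα hA, one_pow, div_one]

omit [DecidableEq K] in
theorem nodalData (hα : α ^ 2 + α = (P.freyCurve⁄K).a₂) (hA : (2 : K) ∈ A.nonunits) :
    Nodal.NodalData A (nodalCurve (nodalB P α)).toAffine where
  model := isNodalModel_nodalCurve _
  hb := by
    show A.valuation (nodalB P α) < 1
    rw [valuation_nodalB P hα hA]
    exact valuation_frey_a₄_lt_one P hA
  hb0 := by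
    show nodalB P α ≠ 0
    exact div_ne_zero (frey_a₄_ne_zero P) (pow_ne_zero _ (u_ne_zero P hα hA))

theorem isIdent_psi_iff (hα : α ^ 2 + α = (P.freyCurve⁄K).a₂) (hA : (2 : K) ∈ A.nonunits)
    (Q : (nodalCurve (nodalB P α)).toAffine.Point) :
    Nodal.IsIdent A (psi P hα (u_ne_zero P hα hA) Q) ↔ Nodal.IsIdent A Q := by
  rcases Q with _ | ⟨X, Y, h⟩
  · change Nodal.IsIdent A (psi P hα (u_ne_zero P hα hA) 0) ↔
      Nodal.IsIdent A (0 : (nodalCurve (nodalB P α)).toAffine.Point)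
    rw [map_zero]
    simp
  · obtain ⟨h', he⟩ := psi_some P hα (u_ne_zero P hα hA) h
    rw [he, Nodal.isIdent_some, Nodal.isIdent_some, map_mul, map_pow,
      valuation_u_eq_one P hα hA, one_pow, one_mul]

/-- Compatibility of `ψ` with automorphisms fixing `α`. -/
theorem map_psi_some (hα : α ^ 2 + α = (P.freyCurve⁄K).a₂) (hu : 1 + 2 * α ≠ 0)
    (σ : K ≃ₐ[ℚ] K) (hσ : σ α = α) {X Y : K}
    (h : (nodalCurve (nodalB P α)).toAffine.Nonsingular X Y) :
    ∃ h' : (nodalCurve (nodalB P α)).toAffine.Nonsingular (σ X) (σ Y),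
      Point.map (W' := P.freyCurve) σ.toAlgHom (psi P hα hu (Point.some X Y h)) =
        psi P hα hu (Point.some (σ X) (σ Y) h') := by
  obtain ⟨h1, e1⟩ := psi_some P hα hu h
  have hσu : σ (1 + 2 * α) = 1 + 2 * α := by
    rw [map_add, map_mul, map_one, map_ofNat, hσ]
  have hx : σ ((1 + 2 * α) ^ 2 * X) = (1 + 2 * α) ^ 2 * σ X := by
    rw [map_mul, map_pow, hσu]
  have hy : σ ((1 + 2 * α) ^ 3 * Y + (1 + 2 * α) ^ 2 * α * X) =
      (1 + 2 * α) ^ 3 * σ Y + (1 + 2 * α) ^ 2 * α * σ X := by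
    rw [map_add, map_mul, map_mul, map_mul, map_pow, map_pow, hσu, hσ]
  have hmap : Point.map (W' := P.freyCurve) σ.toAlgHom (psi P hα hu (Point.some X Y h)) =
      Point.map (W' := P.freyCurve) σ.toAlgHom (Point.some _ _ h1) := by rw [e1]
  rw [hmap, Point.map_some]
  have hns2 : (P.freyCurve⁄K).Nonsingular ((1 + 2 * α) ^ 2 * σ X)
      ((1 + 2 * α) ^ 3 * σ Y + (1 + 2 * α) ^ 2 * α * σ X) := by
    have h2 : (P.freyCurve⁄K).Nonsingular (σ.toAlgHom ((1 + 2 * α) ^ 2 * X))
        (σ.toAlgHom ((1 + 2 * α) ^ 3 * Y + (1 + 2 * α) ^ 2 * α * X)) :=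
      (WeierstrassCurve.Affine.baseChange_nonsingular P.freyCurve σ.toAlgHom.injective ..).mpr h1
    change (P.freyCurve⁄K).Nonsingular (σ ((1 + 2 * α) ^ 2 * X))
        (σ ((1 + 2 * α) ^ 3 * Y + (1 + 2 * α) ^ 2 * α * X)) at h2
    rw [hx, hy] at h2
    exact h2
  have hns : (nodalCurve (nodalB P α)).toAffine.Nonsingular (σ X) (σ Y) := by
    rw [← nodalChange_smul' P hα hu]
    apply (Fermat.Agent.S05.Transfer.nonsingular_new (P.freyCurve.baseChange K)
      (nodalChange α hu) _ _).mp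
    rw [newX_nodalChange, newY_nodalChange]
    exact hns2
  refine ⟨hns, ?_⟩
  obtain ⟨h3, e3⟩ := psi_some P hα hu hns
  rw [e3]
  congr 1

end Psi

end Fermat.Agent.S13
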